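import Fermat.Agent.DS.Normalize
import Fermat.Agent.DS.Restrict
import Fermat.Agent.S23

/-!
The eigencharacter of a normalized eigenform.
-/

set_option autoImplicit false

open CongruenceSubgroup ModularFormClass CuspForm

namespace Fermat.Agent.HGModule

open Fermat.Agent.DS

section

variable {N : ℕ} [NeZero N] {g : CuspForm (Gamma0 N) 2} (hg : g.IsNormalizedEigenform)

include hg

/-- A normalized eigenform is an eigenvector of `T_ℓ`. -/
theorem heckeTLin_eigen {ℓ : ℕ} (hℓ : ℓ.Prime) (hℓN : ¬ ℓ ∣ N) :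
    heckeTLin 2 hℓ hℓN g = qCoeff g ℓ • g := by
  rw [← sub_eq_zero]
  refine eq_zero_of_coeffs _ fun n hn => ?_
  have hsub : qCoeff (⇑(heckeTLin 2 hℓ hℓN g - qCoeff g ℓ • g)) n =
      qCoeff (heckeTLin 2 hℓ hℓN g) n - qCoeff g ℓ * qCoeff g n := by
    have h1 := (coeffL N 2 n).map_sub (heckeTLin 2 hℓ hℓN g) (qCoeff g ℓ • g)
    rw [(coeffL N 2 n).map_smul] at h1
    exact h1
  rw [hsub, qCoeff_heckeTLin hℓ hℓN, sub_eq_zero]
  obtain ⟨r, m, hm, hnm⟩ := Nat.exists_eq_pow_mul_and_not_dvd (by omega : n ≠ 0) ℓ hℓ.ne_one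
  have hcop : ∀ s : ℕ, (ℓ ^ s).Coprime m := fun s =>
    Nat.Coprime.pow_left s ((Nat.Prime.coprime_iff_not_dvd hℓ).mpr hm)
  subst hnm
  have h2 : ℓ ^ r * m * ℓ = ℓ ^ (r + 1) * m := by ring
  rw [h2, hg.qCoeff_mul_of_coprime _ _ (hcop _), hg.qCoeff_mul_of_coprime _ _ (hcop _)]
  rcases r with _ | r
  · rw [if_neg (by simpa using hm)]
    simp [hg.qCoeff_one]
  · rw [if_pos (Dvd.dvd.mul_right (dvd_pow_self ℓ (by omega)) m)]
    have h3 : ℓ ^ (r + 1) * m / ℓ = ℓ ^ r * m := by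
      rw [pow_succ, mul_assoc, mul_comm ℓ m, ← mul_assoc]
      exact Nat.mul_div_cancel _ hℓ.pos
    rw [h3, hg.qCoeff_mul_of_coprime _ _ (hcop _), hg.qCoeff_prime_pow_of_not_dvd ℓ r hℓ hℓN]
    norm_num
    ring

theorem exists_eigenvalue {S : Set ℕ} (hNS : ∀ q : ℕ, q.Prime → q ∣ N → q ∈ S)
    {t : Module.End ℂ (CuspForm (Gamma0 N) 2)} (ht : t ∈ heckeAlgebra N 2 S) :
    t g = qCoeff (t g) 1 • g := by
  have key : ∃ c : ℂ, t g = c • g := by
    induction ht using Algebra.adjoin_induction with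
    | mem t ht =>
      rcases ht with ⟨ℓ, hℓ, hℓN, -, rfl⟩ | ⟨q, hqN, hq, hqS, rfl⟩
      · exact ⟨_, heckeTLin_eigen hg hℓ hℓN⟩
      · exact absurd (hNS q hq hqN) hqS
    | algebraMap r => exact ⟨r, by simpa using (Int.cast_smul_eq_zsmul ℂ r g).symm⟩
    | add a b _ _ ha hb =>
      obtain ⟨x, hx⟩ := ha
      obtain ⟨y, hy⟩ := hb
      exact ⟨x + y, by rw [LinearMap.add_apply, hx, hy, add_smul]⟩
    | mul a b _ _ ha hb =>
      obtain ⟨x, hx⟩ := ha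
      obtain ⟨y, hy⟩ := hb
      exact ⟨y * x, by rw [Module.End.mul_apply, hy, map_smul, hx, smul_smul]⟩
  obtain ⟨c, hc⟩ := key
  have h1 : qCoeff (t g) 1 = c := by
    have h2 : qCoeff (t g) 1 = coeffL N 2 1 (t g) := rfl
    rw [h2, hc, map_smul, coeffL_apply, hg.qCoeff_one, smul_eq_mul, mul_one]
  rw [h1]
  exact hc

/-- the eigencharacter -/
noncomputable def eigenChar {S : Set ℕ} (hNS : ∀ q : ℕ, q.Prime → q ∣ N → q ∈ S) :
    heckeAlgebra N 2 S →+* ℂ where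
  toFun t := qCoeff (t.1 g) 1
  map_one' := by
    change qCoeff g 1 = 1
    exact hg.qCoeff_one
  map_mul' s t := by
    change coeffL N 2 1 (s.1 (t.1 g)) = qCoeff (s.1 g) 1 * qCoeff (t.1 g) 1
    conv_lhs => rw [exists_eigenvalue hg hNS t.2]
    rw [map_smul, map_smul, smul_eq_mul, mul_comm]
    rfl
  map_zero' := by
    change coeffL N 2 1 0 = 0
    rw [map_zero]
  map_add' s t := by
    change coeffL N 2 1 (s.1 g + t.1 g) = coeffL N 2 1 (s.1 g) + coeffL N 2 1 (t.1 g)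
    rw [map_add]

theorem eigenChar_T {S : Set ℕ} (hNS : ∀ q : ℕ, q.Prime → q ∣ N → q ∈ S) {ℓ : ℕ} (hℓ : ℓ.Prime)
    (hℓN : ¬ ℓ ∣ N) (hℓS : ℓ ∉ S) :
    eigenChar hg hNS (heckeAlgebra.T hℓ hℓN hℓS) = qCoeff g ℓ := by
  change coeffL N 2 1 (heckeTLin 2 hℓ hℓN g) = _
  rw [heckeTLin_eigen hg hℓ hℓN, map_smul, coeffL_apply, hg.qCoeff_one, smul_eq_mul, mul_one]

end

end Fermat.Agent.HGModule
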