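import Fermat.Agent.QuadRep.DVRExt
import Mathlib

/-!
Lifting characteristic `p` points of finite flat `ℤ`-domains to complete discrete valuation rings.
-/

set_option autoImplicit false

open scoped TensorProduct
open IsLocalRing

namespace Fermat.Agent.HGModule

open Fermat.Agent.QuadRep

section

variable (p : ℕ) [Fact p.Prime] (k : Type) [Field k] [CharP k p]

/-- The map `ℤ_p → k` for a field `k` of characteristic `p`. -/
noncomputable def padicToChar : ℤ_[p] →+* k :=
  (ZMod.castHom (dvd_refl p) k).comp PadicInt.toZMod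

theorem padicToChar_eq_zero_iff (x : ℤ_[p]) :
    padicToChar p k x = 0 ↔ x ∈ maximalIdeal ℤ_[p] := by
  rw [padicToChar, RingHom.comp_apply, map_eq_zero_iff _ (ZMod.castHom (dvd_refl p) k).injective,
    ← RingHom.mem_ker, PadicInt.ker_toZMod]

variable {k}

/-- A finite torsion free `ℤ_p`-domain with a point in characteristic `p` maps to a complete discrete
valuation ring. -/
theorem exists_dvr_of_domain (B : Type) [CommRing B] [IsDomain B] [Algebra ℤ_[p] B]
    [Module.Finite ℤ_[p] B] (hinjB : Function.Injective (algebraMap ℤ_[p] B)) (ψB : B →+* k)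
    (hψB : ψB.comp (algebraMap ℤ_[p] B) = padicToChar p k) :
    ∃ (O : Type) (_ : CommRing O) (_ : IsDomain O) (_ : IsDiscreteValuationRing O)
      (_ : IsAdicComplete (maximalIdeal O) O) (_ : Finite (ResidueField O)) (_ : CharZero O),
      (p : O) ∈ maximalIdeal O ∧ ∃ β : B →+* O, ∀ b, β b ∈ maximalIdeal O ↔ ψB b = 0 := by
  have hfs : FaithfulSMul ℤ_[p] B := (faithfulSMul_iff_algebraMap_injective _ _).mpr hinjB
  have hBloc : IsLocalRing B := isLocalRing_of_finite_of_isDomain ℤ_[p] B
  let K := FractionRing ℤ_[p]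
  let L := FractionRing B
  have hfs' : FaithfulSMul ℤ_[p] L := inferInstance
  let _ : Algebra K L := FractionRing.liftAlgebra ℤ_[p] L
  have htow : IsScalarTower ℤ_[p] K L := FractionRing.isScalarTower_liftAlgebra _ _
  have hint : Algebra.IsIntegral ℤ_[p] B := inferInstance
  have halg : Algebra.IsAlgebraic ℤ_[p] B := Algebra.IsIntegral.isAlgebraic
  have hisl := Algebra.IsAlgebraic.instIsLocalizationAlgebraMapSubmonoidNonZeroDivisors ℤ_[p] B L
  have hfinL : FiniteDimensional K L :=
    Module.Finite.of_isLocalization ℤ_[p] B (nonZeroDivisors ℤ_[p])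
  let O := integralClosure ℤ_[p] L
  have hloc : IsLocalRing O := isLocalRing_integralClosure ℤ_[p] K L
  have hdvr : IsDiscreteValuationRing O := isDiscreteValuationRing_integralClosure ℤ_[p] K L
  have hlh : IsLocalHom (algebraMap ℤ_[p] O) := isLocalHom_integralClosure ℤ_[p] K L
  have hres : Finite (ResidueField ℤ_[p]) := by
    have : Finite (ℤ_[p] ⧸ maximalIdeal ℤ_[p]) := inferInstance
    exact this
  let β : B →ₐ[ℤ_[p]] O := (IsScalarTower.toAlgHom ℤ_[p] B L).codRestrict (integralClosure ℤ_[p] L)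
    (fun b => (Algebra.IsIntegral.isIntegral b).map (IsScalarTower.toAlgHom ℤ_[p] B L))
  have hβinj : Function.Injective β := by
    intro x y hxy
    exact IsFractionRing.injective B L (congrArg Subtype.val hxy)
  have hβint : (β : B →+* O).IsIntegral := by
    intro y
    obtain ⟨P, hP, hPy⟩ := Algebra.IsIntegral.isIntegral (R := ℤ_[p]) y
    refine ⟨P.map (algebraMap ℤ_[p] B), hP.map _, ?_⟩
    rw [Polynomial.eval₂_map]
    have : (β : B →+* O).comp (algebraMap ℤ_[p] B) = algebraMap ℤ_[p] O := β.comp_algebraMap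
    rw [this]
    exact hPy
  have hβloc : IsLocalHom (β : B →+* O) := hβint.isLocalHom hβinj
  -- the maximal ideal of `B`
  have hkerB : RingHom.ker ψB = maximalIdeal B := by
    have hpr : (RingHom.ker ψB).IsPrime := RingHom.ker_isPrime _
    apply IsLocalRing.eq_maximalIdeal
    apply Ideal.isMaximal_of_isIntegral_of_isMaximal_comap (R := ℤ_[p])
    have : Ideal.comap (algebraMap ℤ_[p] B) (RingHom.ker ψB) = maximalIdeal ℤ_[p] := by
      ext x
      rw [Ideal.mem_comap, RingHom.mem_ker, ← padicToChar_eq_zero_iff p k x, ← hψB]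
      rfl
    rw [this]
    infer_instance
  refine ⟨O, inferInstance, inferInstance, hdvr, isAdicComplete_integralClosure ℤ_[p] K L,
    finite_residueField_integralClosure ℤ_[p] K L, charZero_integralClosure ℤ_[p] K L, ?_, ?_⟩
  · have h1 : (p : O) = algebraMap ℤ_[p] O (p : ℤ_[p]) := by rw [map_natCast]
    rw [h1]
    have h2 : (p : ℤ_[p]) ∈ maximalIdeal ℤ_[p] := by
      rw [PadicInt.maximalIdeal_eq_span_p]
      exact Ideal.mem_span_singleton_self _
    exact map_nonunit (algebraMap ℤ_[p] O) _ h2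
  · refine ⟨(β : B →+* O), fun b => ?_⟩
    have h1 : (β : B →+* O) b ∈ maximalIdeal O ↔ b ∈ maximalIdeal B := by
      rw [mem_maximalIdeal, mem_maximalIdeal, mem_nonunits_iff, mem_nonunits_iff, not_iff_not]
      exact ⟨fun h => hβloc.map_nonunit _ h, fun h => h.map _⟩
    rw [h1, ← hkerB, RingHom.mem_ker]

theorem exists_dvr_point (T : Type) [CommRing T] [IsDomain T] [CharZero T]
    [Module.Finite ℤ T] (ψ : T →+* k) :
    ∃ (O : Type) (_ : CommRing O) (_ : IsDomain O) (_ : IsDiscreteValuationRing O)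
      (_ : IsAdicComplete (maximalIdeal O) O) (_ : Finite (ResidueField O)) (_ : CharZero O),
      (p : O) ∈ maximalIdeal O ∧ ∃ χ : T →+* O, ∀ t, χ t ∈ maximalIdeal O ↔ ψ t = 0 := by
  classical
  let R := ℤ_[p] ⊗[ℤ] T
  have htf : Module.IsTorsionFree ℤ T := inferInstance
  have hfreeT : Module.Free ℤ T := Module.free_of_finite_type_torsion_free'
  let ψp : R →ₐ[ℤ] k :=
    Algebra.TensorProduct.productMap (padicToChar p k).toIntAlgHom ψ.toIntAlgHom
  have hψp : ∀ (x : ℤ_[p]) (t : T), ψp (x ⊗ₜ t) = padicToChar p k x * ψ t := fun x t =>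
    Algebra.TensorProduct.productMap_apply_tmul _ _ x t
  have hn : (RingHom.ker ψp).IsPrime := RingHom.ker_isPrime _
  obtain ⟨q, hq, hqn⟩ := Ideal.exists_minimalPrimes_le (J := RingHom.ker ψp) (I := ⊥) bot_le
  have hqp : q.IsPrime := hq.1.1
  have hinjB : Function.Injective (algebraMap ℤ_[p] (R ⧸ q)) := by
    rw [injective_iff_map_eq_zero]
    intro x hx
    by_contra hx0
    have hx' : algebraMap ℤ_[p] R x ∈ q := by
      rw [← Ideal.Quotient.eq_zero_iff_mem]
      exact hx
    refine notMem_nonZeroDivisors_of_mem_mem_minimalPrimes hx' hq ?_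
    rw [mem_nonZeroDivisors_iff_right]
    intro y hy
    rw [mul_comm, ← Algebra.smul_def] at hy
    exact (smul_eq_zero.mp hy).resolve_left hx0
  let ψB : (R ⧸ q) →+* k := Ideal.Quotient.lift q (ψp : R →+* k) (fun a ha => hqn ha)
  have hψB : ∀ r : R, ψB (Ideal.Quotient.mk q r) = ψp r := fun r => Ideal.Quotient.lift_mk _ _ _
  have hcomp : ψB.comp (algebraMap ℤ_[p] (R ⧸ q)) = padicToChar p k := by
    ext x
    have h1 : algebraMap ℤ_[p] (R ⧸ q) x = Ideal.Quotient.mk q (x ⊗ₜ 1) := rfl
    rw [RingHom.comp_apply, h1, hψB, hψp, map_one, mul_one]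
  obtain ⟨O, i1, i2, i3, i4, i5, i6, hp, β, hβ⟩ :=
    exists_dvr_of_domain p (R ⧸ q) hinjB ψB hcomp
  refine ⟨O, i1, i2, i3, i4, i5, i6, hp, β.comp ((Ideal.Quotient.mk q).comp
      (Algebra.TensorProduct.includeRight : T →ₐ[ℤ] R).toRingHom), fun t => ?_⟩
  have h2 := hβ (Ideal.Quotient.mk q (1 ⊗ₜ t))
  rw [hψB, hψp, map_one, one_mul] at h2
  exact h2

end

end Fermat.Agent.HGModule
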