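import Mathlib

/-!
The residue field of the ring of all algebraic integers at a maximal ideal is algebraically
closed; extension of maps of residue fields.
-/

set_option autoImplicit false
set_option linter.style.haveILetI false

open Polynomial

namespace Fermat.Agent.HGModule

theorem isMaximal_ker (p : ℕ) [Fact p.Prime] {k : Type*} [Field k] [CharP k p]
    (φ : integralClosure ℤ ℂ →+* k) : (RingHom.ker φ).IsMaximal := by
  have hpr : (RingHom.ker φ).IsPrime := RingHom.ker_isPrime _
  have hint : Algebra.IsIntegral ℤ (integralClosure ℤ ℂ) := inferInstance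
  apply Ideal.isMaximal_of_isIntegral_of_isMaximal_comap (R := ℤ)
  have : Ideal.comap (algebraMap ℤ (integralClosure ℤ ℂ)) (RingHom.ker φ) = Ideal.span {(p : ℤ)} := by
    ext x
    rw [Ideal.mem_comap, RingHom.mem_ker, Ideal.mem_span_singleton, eq_intCast, map_intCast]
    exact CharP.intCast_eq_zero_iff k p x
  rw [this]
  exact PrincipalIdealRing.isMaximal_of_irreducible
    (Nat.prime_iff_prime_int.mp Fact.out).irreducible

theorem isAlgClosed_quotient (𝔪 : Ideal (integralClosure ℤ ℂ)) [𝔪.IsMaximal] :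
    letI := Ideal.Quotient.field 𝔪
    IsAlgClosed (integralClosure ℤ ℂ ⧸ 𝔪) := by
  letI := Ideal.Quotient.field 𝔪
  refine IsAlgClosed.of_exists_root _ (fun P hP hirr => ?_)
  have hl : P ∈ Polynomial.lifts (Ideal.Quotient.mk 𝔪) := by
    rw [Polynomial.mem_lifts]
    exact Polynomial.map_surjective _ Ideal.Quotient.mk_surjective P
  obtain ⟨R, hRP, hRdeg, hRm⟩ := Polynomial.lifts_and_natDegree_eq_and_monic hl hP
  have hdeg : R.degree ≠ 0 := by
    intro h
    have h1 : R.natDegree = 0 := Polynomial.natDegree_eq_zero_iff_degree_le_zero.mpr h.le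
    rw [hRdeg] at h1
    exact hirr.natDegree_pos.ne' h1
  have hinj : Function.Injective (algebraMap (integralClosure ℤ ℂ) ℂ) := Subtype.val_injective
  obtain ⟨z, hz⟩ := IsAlgClosed.exists_eval₂_eq_zero_of_injective
    (algebraMap (integralClosure ℤ ℂ) ℂ) hinj R hdeg
  have hzint : IsIntegral (integralClosure ℤ ℂ) z := ⟨R, hRm, hz⟩
  have hzint' : IsIntegral ℤ z := isIntegral_trans z hzint
  let y : integralClosure ℤ ℂ := ⟨z, hzint'⟩
  have hy : R.eval y = 0 := by
    apply hinj
    rw [map_zero, ← hz]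
    exact (Polynomial.eval₂_at_apply _ y).symm
  refine ⟨Ideal.Quotient.mk 𝔪 y, ?_⟩
  rw [← hRP, Polynomial.eval_map, Polynomial.eval₂_at_apply, hy, map_zero]

theorem exists_lift_of_finite (F k' Ω : Type*) [Field F] [Field k'] [Field Ω] [Finite k']
    [IsAlgClosed Ω] (a : F →+* k') (b : F →+* Ω) : ∃ l : k' →+* Ω, ∀ x, l (a x) = b x := by
  letI : Algebra F k' := a.toAlgebra
  letI : Algebra F Ω := b.toAlgebra
  have hfk : Module.Finite F k' := Module.Finite.of_finite
  have halg' : Algebra.IsAlgebraic F k' := inferInstance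
  let l : k' →ₐ[F] Ω := IsAlgClosed.lift
  exact ⟨l, fun x => l.commutes x⟩

/-- Extension of residue field maps. -/
theorem exists_residue_ext (p : ℕ) [Fact p.Prime] {k : Type*} [Field k] [CharP k p]
    (φ : integralClosure ℤ ℂ →+* k) {T : Type*} [CommRing T] (j : T →+* integralClosure ℤ ℂ)
    (k' : Type*) [Field k'] [Finite k'] (c : T →+* k') (hc : ∀ t, c t = 0 ↔ φ (j t) = 0) :
    ∃ r : k' →+* k, ∀ t, r (c t) = φ (j t) := by
  classical
  have hmax : (RingHom.ker φ).IsMaximal := isMaximal_ker p φ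
  letI := Ideal.Quotient.field (RingHom.ker φ)
  have halg := isAlgClosed_quotient (RingHom.ker φ)
  -- the residue field of `T`
  have hinjc : Function.Injective (RingHom.kerLift c) := RingHom.kerLift_injective c
  have hfin : Finite (T ⧸ RingHom.ker c) := Finite.of_injective _ hinjc
  have hpr : (RingHom.ker c).IsPrime := RingHom.ker_isPrime c
  have hfield : IsField (T ⧸ RingHom.ker c) := Finite.isField_of_domain _
  have hmaxc : (RingHom.ker c).IsMaximal := Ideal.Quotient.maximal_of_isField _ hfield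
  letI := Ideal.Quotient.field (RingHom.ker c)
  let jj : (T ⧸ RingHom.ker c) →+* (integralClosure ℤ ℂ ⧸ RingHom.ker φ) :=
    Ideal.Quotient.lift _ ((Ideal.Quotient.mk (RingHom.ker φ)).comp j) (fun a ha => by
      rw [RingHom.comp_apply, Ideal.Quotient.eq_zero_iff_mem, RingHom.mem_ker]
      exact (hc a).mp ha)
  obtain ⟨l, hl⟩ := exists_lift_of_finite (T ⧸ RingHom.ker c) k'
    (integralClosure ℤ ℂ ⧸ RingHom.ker φ) (RingHom.kerLift c) jj
  refine ⟨(RingHom.kerLift φ).comp l, fun t => ?_⟩
  have h2 : l (c t) = Ideal.Quotient.mk (RingHom.ker φ) (j t) := hl (Ideal.Quotient.mk _ t)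
  rw [RingHom.comp_apply, h2]
  rfl

end Fermat.Agent.HGModule
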