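import Fermat.Agent.HGModule.EigenChar
import Fermat.Agent.HGModule.PointLift
import Fermat.Agent.HGModule.ResidueExt
import Fermat.Prelude.Def_CuspForm_HeckeGaloisRepDatum

/-!
S29 from S30.
-/

set_option autoImplicit false
set_option linter.overlappingInstances false

open Polynomial IsLocalRing CuspForm CongruenceSubgroup
open scoped TensorProduct

namespace Fermat.Agent.HGModule

/-- The statement of S30. -/
def S30Statement : Prop :=
    ∀ (p : ℕ) [Fact p.Prime] (N : ℕ) [NeZero N] (S : Finset ℕ)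
      (_hpS : p ∈ S) (_hNS : ∀ q : ℕ, q.Prime → q ∣ N → q ∈ S)
      (𝒪' : Type) [CommRing 𝒪'] [IsDomain 𝒪'] [IsDiscreteValuationRing 𝒪']
      [IsAdicComplete (IsLocalRing.maximalIdeal 𝒪') 𝒪'] [Finite (IsLocalRing.ResidueField 𝒪')]
      [CharZero 𝒪'] (_hp𝒪' : (p : 𝒪') ∈ IsLocalRing.maximalIdeal 𝒪')
      (χ : CuspForm.heckeAlgebra N 2 (↑S : Set ℕ) →+* 𝒪'),
      ∃ (𝒪'' : Type) (_ : CommRing 𝒪'') (_ : IsDomain 𝒪'') (_ : IsDiscreteValuationRing 𝒪'')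
        (_ : IsAdicComplete (IsLocalRing.maximalIdeal 𝒪'') 𝒪'')
        (_ : Finite (IsLocalRing.ResidueField 𝒪'')) (_ : CharZero 𝒪'')
        (_ : Algebra 𝒪' 𝒪'') (_ : Module.Finite 𝒪' 𝒪'') (_ : IsLocalHom (algebraMap 𝒪' 𝒪'')),
      Function.Injective (algebraMap 𝒪' 𝒪'') ∧
      ∃ ρ : GaloisRepAdic 𝒪'',
        (∀ (ℓ : ℕ) (hℓ : ℓ.Prime) (hℓN : ¬ ℓ ∣ N) (hℓS : ℓ ∉ (↑S : Set ℕ)),
          ∀ A : ValuationSubring (AlgebraicClosure ℚ), A.LiesOverPrime ℓ →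
            ∀ σ : AlgebraicClosure ℚ ≃ₐ[ℚ] AlgebraicClosure ℚ, A.IsFrobeniusAt σ ℓ →
              LinearMap.charpoly (ρ.ρ σ) =
                X ^ 2 - C (algebraMap 𝒪' 𝒪'' (χ (CuspForm.heckeAlgebra.T hℓ hℓN hℓS))) * X
                  + C ((ℓ : 𝒪''))) ∧
        (∀ q : ℕ, q.Prime → ¬ q ∣ N → q ≠ p → ρ.IsUnramifiedAt q)

/-- The trivial residual representation. -/
noncomputable def trivialRep (k : Type) [Field k] : ResidualGaloisRep k where
  V := Fin 2 → k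
  finrank_eq := by simp
  ρ := 1
  factorsThroughFiniteLevel := ⟨⊥, inferInstance, fun _ _ => rfl⟩

theorem charpoly_residual {O₂ : Type} [CommRing O₂] [IsLocalRing O₂] (ρ : GaloisRepAdic O₂)
    (σ : AlgebraicClosure ℚ ≃ₐ[ℚ] AlgebraicClosure ℚ) :
    LinearMap.charpoly (ρ.residual.ρ σ) = (LinearMap.charpoly (ρ.ρ σ)).map (residue O₂) :=
  LinearMap.charpoly_baseChange (ρ.ρ σ) (ResidueField O₂)

theorem charpoly_baseChangeAlong {k k' : Type} [Field k] [Field k'] (r : k →+* k')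
    (ρ : ResidualGaloisRep k) (σ : AlgebraicClosure ℚ ≃ₐ[ℚ] AlgebraicClosure ℚ) :
    LinearMap.charpoly ((ρ.baseChangeAlong r).ρ σ) = (LinearMap.charpoly (ρ.ρ σ)).map r := by
  let _ : Algebra k k' := r.toAlgebra
  exact LinearMap.charpoly_baseChange (ρ.ρ σ) k'

theorem S29_of_S30 (h30 : S30Statement)
    {N : ℕ} {g : CuspForm (CongruenceSubgroup.Gamma0 N) 2} (hg : g.IsNormalizedEigenform)
    {p : ℕ} (hp : p.Prime) {k : Type} [Field k] [CharP k p]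
    (φ : integralClosure ℤ ℂ →+* k) :
    ∃ ρ : ResidualGaloisRep k, ρ.IsAttachedTo g φ ∧
      ∀ ℓ : ℕ, ℓ.Prime → ¬ ℓ ∣ N * p → ρ.IsUnramifiedAt ℓ := by
  classical
  have hpf : Fact p.Prime := ⟨hp⟩
  rcases Nat.eq_zero_or_pos N with rfl | hNpos
  · refine ⟨trivialRep k, fun ℓ hℓ hℓN => absurd (dvd_zero ℓ) hℓN, fun ℓ _ _ A _ σ _ => rfl⟩
  have hN0 : NeZero N := ⟨hNpos.ne'⟩
  let S : Finset ℕ := (N * p).primeFactors
  have hNp : N * p ≠ 0 := mul_ne_zero hNpos.ne' hp.ne_zero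
  have hpS : p ∈ S := Nat.mem_primeFactors.mpr ⟨hp, dvd_mul_left p N, hNp⟩
  have hNS : ∀ q : ℕ, q.Prime → q ∣ N → q ∈ S := fun q hq hqN =>
    Nat.mem_primeFactors.mpr ⟨hq, hqN.mul_right p, hNp⟩
  have hNS' : ∀ q : ℕ, q.Prime → q ∣ N → q ∈ (↑S : Set ℕ) := fun q hq hqN =>
    Finset.mem_coe.mpr (hNS q hq hqN)
  have hnotS : ∀ ℓ : ℕ, ℓ.Prime → ¬ ℓ ∣ N → ℓ ≠ p → ℓ ∉ (↑S : Set ℕ) := by
    intro ℓ hℓ hℓN hℓp h
    have h1 := (Nat.mem_primeFactors.mp (Finset.mem_coe.mp h)).2.1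
    rcases (Nat.Prime.dvd_mul hℓ).mp h1 with h2 | h2
    · exact hℓN h2
    · exact hℓp ((Nat.prime_dvd_prime_iff_eq hℓ hp).mp h2)
  -- the Hecke algebra is finite
  have hfinT : Module.Finite ℤ (heckeAlgebra N 2 (↑S : Set ℕ)) :=
    Fermat.Agent.DS.heckeAlgebra_finite (by norm_num) _ (Fermat.Agent.S23.result N)
  let lam : heckeAlgebra N 2 (↑S : Set ℕ) →+* ℂ := eigenChar hg hNS'
  let lam' : heckeAlgebra N 2 (↑S : Set ℕ) →ₐ[ℤ] integralClosure ℤ ℂ :=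
    lam.toIntAlgHom.codRestrict (integralClosure ℤ ℂ)
      (fun t => (Algebra.IsIntegral.isIntegral t).map lam.toIntAlgHom)
  let T' : Subalgebra ℤ (integralClosure ℤ ℂ) := lam'.range
  have hfinT' : Module.Finite ℤ T' :=
    Module.Finite.of_surjective lam'.rangeRestrict.toLinearMap lam'.rangeRestrict_surjective
  let ψ : T' →+* k := φ.comp T'.val.toRingHom
  obtain ⟨O, i1, i2, i3, i4, i5, i6, hpO, χ', hχ'⟩ := exists_dvr_point p T' ψ
  let χ : heckeAlgebra N 2 (↑S : Set ℕ) →+* O := χ'.comp lam'.rangeRestrict.toRingHom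
  obtain ⟨O₂, j1, j2, j3, j4, j5, j6, j7, j8, j9, hinj, ρ, h1, h2⟩ :=
    h30 p N S hpS hNS O hpO χ
  -- residue fields
  let c : T' →+* ResidueField O₂ := (residue O₂).comp ((algebraMap O O₂).comp χ')
  have hc : ∀ t, c t = 0 ↔ φ (T'.val.toRingHom t) = 0 := by
    intro t
    have h3 : c t = 0 ↔ χ' t ∈ maximalIdeal O := by
      change residue O₂ (algebraMap O O₂ (χ' t)) = 0 ↔ _
      rw [residue_eq_zero_iff, mem_maximalIdeal, mem_maximalIdeal, mem_nonunits_iff,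
        mem_nonunits_iff, not_iff_not]
      exact ⟨fun h => j9.map_nonunit _ h, fun h => h.map _⟩
    rw [h3, hχ' t]
    rfl
  obtain ⟨r, hr⟩ := exists_residue_ext p φ T'.val.toRingHom (ResidueField O₂) c hc
  refine ⟨ρ.residual.baseChangeAlong r, ?_, ?_⟩
  · intro ℓ hℓ hℓN hℓk A hA σ hσ
    have hℓp : ℓ ≠ p := by
      rintro rfl
      exact hℓk (CharP.cast_eq_zero k ℓ)
    have hℓS := hnotS ℓ hℓ hℓN hℓp
    let t := heckeAlgebra.T (k := 2) hℓ hℓN hℓS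
    refine ⟨lam' t, ?_, ?_⟩
    · change lam t = _
      exact eigenChar_T hg hNS' hℓ hℓN hℓS
    · have h3 := h1 ℓ hℓ hℓN hℓS A hA σ hσ
      rw [charpoly_baseChangeAlong, charpoly_residual, h3]
      have h6 : r (residue O₂ (algebraMap O O₂ (χ t))) = φ (lam' t) := hr (lam'.rangeRestrict t)
      simp only [Polynomial.map_add, Polynomial.map_sub, Polynomial.map_mul, Polynomial.map_pow,
        Polynomial.map_X, Polynomial.map_C, map_natCast]
      rw [← h6]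
      simp [t]
  · intro ℓ hℓ hℓNp A hA σ hσ
    have hℓN : ¬ ℓ ∣ N := fun h => hℓNp (h.mul_right p)
    have hℓp : ℓ ≠ p := by
      rintro rfl
      exact hℓNp (dvd_mul_left _ _)
    have h3 := h2 ℓ hℓ hℓN hℓp A hA σ hσ
    have h4 : ρ.residual.ρ σ = 1 := by
      change (ρ.ρ σ).baseChange (ResidueField O₂) = 1
      rw [h3, LinearMap.baseChange_one]
    let _ : Algebra (ResidueField O₂) k := r.toAlgebra
    change (ρ.residual.ρ σ).baseChange k = 1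
    rw [h4, LinearMap.baseChange_one]

end Fermat.Agent.HGModule
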