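import Fermat.Agent.HGModule.TorsionLevel
import Fermat.Agent.FrobDensity.Final
import Fermat.Prelude.Def_FreyPackage_EigenformResidualAttachment
import Fermat.Prelude.Def_GaloisRep_Residual
import Mathlib.LinearAlgebra.Charpoly.ToMatrix

/-!
S42 from S29.
-/

set_option autoImplicit false

open WeierstrassCurve WeierstrassCurve.Affine WeierstrassCurve.Affine.Point Polynomial

namespace Fermat.Agent.HGModule

/-- The statement of S29. -/
def S29Statement : Prop :=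
  ∀ {N : ℕ} {g : CuspForm (CongruenceSubgroup.Gamma0 N) 2} (_ : g.IsNormalizedEigenform)
    {p : ℕ} (_ : p.Prime) {k : Type} [Field k] [CharP k p]
    (φ : integralClosure ℤ ℂ →+* k),
    ∃ ρ : ResidualGaloisRep k, ρ.IsAttachedTo g φ ∧
      ∀ ℓ : ℕ, ℓ.Prime → ¬ ℓ ∣ N * p → ρ.IsUnramifiedAt ℓ

theorem trace_det_of_charpoly {k V : Type*} [Field k] [AddCommGroup V] [Module k V]
    (hV : Module.finrank k V = 2) (f : Module.End k V) (a d : k) [Module.Finite k V]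
    (h : LinearMap.charpoly f = X ^ 2 - C a * X + C d) :
    LinearMap.trace k V f = a ∧ LinearMap.det f = d := by
  let b := Module.finBasisOfFinrankEq k V hV
  rw [← LinearMap.charpoly_toMatrix f b, Matrix.charpoly_fin_two] at h
  have h0 := congrArg (fun P : k[X] => P.coeff 0) h
  have h1 := congrArg (fun P : k[X] => P.coeff 1) h
  simp at h0 h1
  constructor
  · rw [LinearMap.trace_eq_matrix_trace k b, h1]
  · exact h0

theorem frey_level (P : FreyPackage) [inst : DecidableEq (AlgebraicClosure ℚ)] :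
    ∃ L : IntermediateField ℚ (AlgebraicClosure ℚ), FiniteDimensional ℚ L ∧
      ∀ σ : AlgebraicClosure ℚ ≃ₐ[ℚ] AlgebraicClosure ℚ, (∀ x ∈ L, σ x = x) →
        galoisRepModuleEnd (K := AlgebraicClosure ℚ) ℚ P.freyCurve P.p σ = 1 := by
  apply exists_level
  have hp5 := P.hp5
  have hpF : ((P.p : ℕ) : AlgebraicClosure ℚ) ≠ 0 := by exact_mod_cast P.hp0
  obtain ⟨hfin, -⟩ := Fermat.Agent.ECP.torsion_card_le (W := P.freyCurve⁄(AlgebraicClosure ℚ))
    P.pp (by omega) hpF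
  have hset : {Q : (P.freyCurve⁄(AlgebraicClosure ℚ)).Point | P.p • Q = 0} =
      (Submodule.torsionBy ℤ (P.freyCurve⁄(AlgebraicClosure ℚ)).Point P.p :
        Set (P.freyCurve⁄(AlgebraicClosure ℚ)).Point) := by
    ext Q
    rw [SetLike.mem_coe, Submodule.mem_torsionBy_iff]
    change P.p • Q = 0 ↔ _
    rw [natCast_zsmul]
  rw [hset] at hfin
  exact hfin.to_subtype

theorem S42_of_S29 (h29 : S29Statement) (P : FreyPackage) :
    ∀ M : ℕ, 0 < M → P.EigenformResidualAttachmentAt M := by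
  classical
  intro M hM g hg 𝔪 h𝔪 hp𝔪
  have hpp : Fact P.p.Prime := ⟨P.pp⟩
  let _ : Field (integralClosure ℤ ℂ ⧸ 𝔪) := Ideal.Quotient.field 𝔪
  have hchar : CharP (integralClosure ℤ ℂ ⧸ 𝔪) P.p := by
    rw [CharP.charP_iff_prime_eq_zero P.pp, ← map_natCast (Ideal.Quotient.mk 𝔪),
      Ideal.Quotient.eq_zero_iff_mem]
    exact hp𝔪
  obtain ⟨ρ, hatt, -⟩ := h29 hg P.pp (Ideal.Quotient.mk 𝔪)
  obtain ⟨L₁, hL₁, h₁⟩ := frey_level P
    (inst := Classical.decEq (AlgebraicClosure ℚ))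
  obtain ⟨L₂, hL₂, h₂⟩ := ρ.factorsThroughFiniteLevel
  have hfd : FiniteDimensional ℚ (L₁ ⊔ L₂ : IntermediateField ℚ (AlgebraicClosure ℚ)) := by
    have := hL₁
    have := hL₂
    exact IntermediateField.finiteDimensional_sup L₁ L₂
  obtain ⟨F, hLF, hFfin, hFnorm⟩ := Fermat.Agent.FrobDensity.exists_normal_finite (L₁ ⊔ L₂)
  have hF0 : CharZero F := charZero_of_injective_algebraMap (algebraMap ℚ F).injective
  have hFnf : NumberField F := Fermat.Agent.FrobDensity.numberField_of_algebra F F.algebra' hFfin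
  have hFgal : IsGalois ℚ F := Fermat.Agent.FrobDensity.isGalois_of_algebra F F.algebra' hFnorm
  have hFtow : IsScalarTower ℚ F (AlgebraicClosure ℚ) :=
    .of_algebraMap_eq' (Subsingleton.elim _ _)
  have hker : ∀ σ : AlgebraicClosure ℚ ≃ₐ[ℚ] AlgebraicClosure ℚ,
      σ ∈ (AlgEquiv.restrictNormalHom (F := ℚ) (K₁ := AlgebraicClosure ℚ) F).ker →
        ∀ x ∈ F, σ x = x := by
    intro σ hσ x hx
    have h1 : AlgEquiv.restrictNormalHom (F := ℚ) (K₁ := AlgebraicClosure ℚ) F σ = 1 :=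
      MonoidHom.mem_ker.mp hσ
    have h2 := σ.restrictNormal_commutes F ⟨x, hx⟩
    have h3 : σ.restrictNormal F = 1 := h1
    rw [h3] at h2
    exact h2.symm
  have key : ∀ ℓ : ℕ, ℓ.Prime → ¬ ℓ ∣ M → ℓ ≠ P.p →
      ∀ A : ValuationSubring (AlgebraicClosure ℚ), A.LiesOverPrime ℓ →
        ∀ τ : AlgebraicClosure ℚ ≃ₐ[ℚ] AlgebraicClosure ℚ, A.IsFrobeniusAt τ ℓ →
          ∃ a : integralClosure ℤ ℂ, (a : ℂ) = ModularFormClass.qCoeff g ℓ ∧
            LinearMap.trace _ ρ.V (ρ.ρ τ) = Ideal.Quotient.mk 𝔪 a ∧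
            LinearMap.det (ρ.ρ τ) = (ℓ : integralClosure ℤ ℂ ⧸ 𝔪) := by
    intro ℓ hℓ hℓM hℓp A hA τ hτ
    have hℓ0 : (ℓ : integralClosure ℤ ℂ ⧸ 𝔪) ≠ 0 := by
      intro h0
      have := (CharP.cast_eq_zero_iff (integralClosure ℤ ℂ ⧸ 𝔪) P.p ℓ).mp h0
      exact hℓp ((Nat.prime_dvd_prime_iff_eq P.pp hℓ).mp this).symm
    obtain ⟨a, ha, hch⟩ := hatt ℓ hℓ hℓM hℓ0 A hA τ hτ
    obtain ⟨h1, h2⟩ := trace_det_of_charpoly ρ.finrank_eq (ρ.ρ τ) _ _ hch
    exact ⟨a, ha, h1, h2⟩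
  refine ⟨integralClosure ℤ ℂ ⧸ 𝔪, inferInstance, ZMod.algebra _ P.p, ρ.V, inferInstance,
    inferInstance, ρ.ρ, Ideal.Quotient.mk 𝔪, F, inferInstance, hFnf, hFgal, inferInstance, hFtow,
    ?_, ρ.finrank_eq, ?_, ?_, ?_⟩
  · rw [Ideal.mk_ker]
  · intro σ hσ
    have hσ' := hker σ hσ
    refine Subgroup.mem_inf.mpr ⟨?_, ?_⟩
    · rw [MonoidHom.mem_ker]
      exact h₁ σ fun x hx => hσ' x (hLF ((le_sup_left : L₁ ≤ L₁ ⊔ L₂) hx))
    · rw [MonoidHom.mem_ker]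
      exact h₂ σ fun x hx => hσ' x (hLF ((le_sup_right : L₂ ≤ L₁ ⊔ L₂) hx))
  · intro ℓ hℓ hℓM hℓp A hA τ hτ
    obtain ⟨a, ha, h1, -⟩ := key ℓ hℓ hℓM hℓp A hA τ hτ
    exact ⟨a, ha, h1⟩
  · intro ℓ hℓ hℓM hℓp A hA τ hτ
    obtain ⟨a, ha, -, h2⟩ := key ℓ hℓ hℓM hℓp A hA τ hτ
    exact h2

end Fermat.Agent.HGModule
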