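import Fermat.Prelude.Def_GaloisRep_Adic
import Fermat.Prelude.Def_CuspForm_HeckeAlgebra
import Fermat.Prelude.Def_FLTPrelim_Ramification
import Fermat.Prelude.Def_EllipticCurve_FrobeniusTrace
import Mathlib.NumberTheory.Padics.RingHoms
import Mathlib.RingTheory.TensorProduct.Free

/-!
The interface between the arithmetic of the Jacobians `J₀(N)` and the construction of Galois
representations: the structure `HeckeGaloisModule p N S` records what has to be known about
`T_p J₀(N) = ℤ_p ⊗ Hom(H₁(X₀(N), ℤ), ℤ)`.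
-/

set_option autoImplicit false

open scoped TensorProduct

namespace Fermat.Agent.HGModule

/-- A lattice `H` with a faithful action `θ` of the Hecke algebra (away from `S`) and a commuting
continuous action `ρ` of the absolute Galois group of `ℚ` on `ℤ_p ⊗ H`, such that Frobenius elements
satisfy the Eichler-Shimura relation `σ ^ 2 - T_ℓ σ + ℓ = 0` and inertia acts trivially outside
`N p`. -/
structure HeckeGaloisModule (p : ℕ) [Fact p.Prime] (N : ℕ) [NeZero N] (S : Set ℕ) : Type 1 where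
  /-- the lattice -/
  H : Type
  [instAddCommGroup : AddCommGroup H]
  [instFree : Module.Free ℤ H]
  [instFinite : Module.Finite ℤ H]
  /-- the Hecke action -/
  θ : CuspForm.heckeAlgebra N 2 S →+* Module.End ℤ H
  θ_injective : Function.Injective θ
  /-- the Galois action -/
  ρ : (AlgebraicClosure ℚ ≃ₐ[ℚ] AlgebraicClosure ℚ) →* Module.End ℤ_[p] (ℤ_[p] ⊗[ℤ] H)
  isAdicContinuous : GaloisActionIsAdicContinuous ℤ_[p] ρ
  commute : ∀ (t : CuspForm.heckeAlgebra N 2 S)
    (σ : AlgebraicClosure ℚ ≃ₐ[ℚ] AlgebraicClosure ℚ), Commute ((θ t).baseChange ℤ_[p]) (ρ σ)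
  frobenius : ∀ (ℓ : ℕ) (hℓ : ℓ.Prime) (hℓN : ¬ ℓ ∣ N) (hℓS : ℓ ∉ S), ℓ ≠ p →
    ∀ A : ValuationSubring (AlgebraicClosure ℚ), A.LiesOverPrime ℓ →
      ∀ σ : AlgebraicClosure ℚ ≃ₐ[ℚ] AlgebraicClosure ℚ, A.IsFrobeniusAt σ ℓ →
        ρ σ * ρ σ - (θ (CuspForm.heckeAlgebra.T hℓ hℓN hℓS)).baseChange ℤ_[p] * ρ σ
          + (ℓ : ℤ_[p]) • (1 : Module.End ℤ_[p] (ℤ_[p] ⊗[ℤ] H)) = 0
  unramified : ∀ q : ℕ, q.Prime → ¬ q ∣ N → q ≠ p →
    ∀ A : ValuationSubring (AlgebraicClosure ℚ), A.LiesOverPrime q →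
      ∀ σ ∈ A.inertiaSubgroupIn ℚ, ρ σ = 1

attribute [instance] HeckeGaloisModule.instAddCommGroup HeckeGaloisModule.instFree
  HeckeGaloisModule.instFinite

end Fermat.Agent.HGModule
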