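import Mathlib

/-!
Existence of eigenvectors for a commutative ring acting faithfully on a lattice.
-/

set_option autoImplicit false

open scoped TensorProduct

namespace Fermat.Agent.HGModule

/-- A commutative ring `T` acting faithfully on `ℤʳ`; every ring homomorphism `χ : T → K` to a
field of characteristic zero occurs as a system of eigenvalues on `Kʳ`. -/
theorem exists_eigenvector {T : Type*} [CommRing T] {r : ℕ}
    (Q : T →+* Matrix (Fin r) (Fin r) ℤ) (hQ : Function.Injective Q)
    {K : Type*} [Field K] [CharZero K] (χ : T →+* K) :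
    ∃ w : Fin r → K, w ≠ 0 ∧ ∀ t, ((Q t).map (Int.castRingHom K)).mulVec w = χ t • w := by
  let A := K ⊗[ℤ] T
  let Q' : T →ₐ[ℤ] Matrix (Fin r) (Fin r) K :=
    (((Int.castRingHom K).mapMatrix).comp Q).toIntAlgHom
  let Φ : A →ₐ[K] Matrix (Fin r) (Fin r) K :=
    Algebra.TensorProduct.lift (Algebra.ofId K (Matrix (Fin r) (Fin r) K)) Q'
      (fun x y => Algebra.commutes x (Q' y))
  have hΦ : ∀ (c : K) (t : T), Φ (c ⊗ₜ t) = c • Q' t := fun c t => by
    rw [Algebra.smul_def]
    exact Algebra.TensorProduct.lift_tmul _ _ _ c t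
  have hflat : Module.Flat ℤ K := inferInstance
  have hΦinj : Function.Injective Φ := by
    have h1 : Function.Injective (LinearMap.lTensor K (Q.toIntAlgHom.toLinearMap)) :=
      Module.Flat.lTensor_preserves_injective_linearMap _ hQ
    have h2 : ∀ x : A, Φ x = (matrixEquivTensor (Fin r) ℤ K).symm
        (LinearMap.lTensor K (Q.toIntAlgHom.toLinearMap) x) := by
      intro x
      induction x using TensorProduct.induction_on with
      | zero => simp
      | tmul c t =>
        rw [hΦ, LinearMap.lTensor_tmul, matrixEquivTensor_apply_symm]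
        ext i j
        rfl
      | add x y hx hy => rw [map_add, map_add, map_add, hx, hy]
    intro x y hxy
    rw [h2, h2] at hxy
    exact h1 ((matrixEquivTensor (Fin r) ℤ K).symm.injective hxy)
  have hfin : Module.Finite K A := Module.Finite.of_injective Φ.toLinearMap hΦinj
  have hart : IsArtinianRing A := IsArtinianRing.of_finite K A
  let V := Fin r → K
  let φ : A →+* Module.End K V :=
    ((Matrix.toLinAlgEquiv' (R := K) (n := Fin r)).toAlgHom.comp Φ).toRingHom
  let mod : Module A V := Module.compHom V φ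
  have hsm : ∀ (a : A) (v : V), a • v = (Φ a).mulVec v := fun a v => rfl
  have htow : IsScalarTower K A V := ⟨fun c a v => by
    rw [hsm, hsm, map_smul, Matrix.smul_mulVec]⟩
  have hfV : Module.Finite A V := Module.Finite.of_restrictScalars_finite K A V
  let ψ : A →ₐ[K] K := Algebra.TensorProduct.lift (AlgHom.id K K) χ.toIntAlgHom
      (fun x y => Commute.all _ _)
  have hψ : ∀ (c : K) (t : T), ψ (c ⊗ₜ t) = c * χ t := fun c t =>
    Algebra.TensorProduct.lift_tmul _ _ _ c t
  have hmax : (RingHom.ker ψ).IsMaximal := RingHom.ker_isMaximal_of_surjective _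
    (fun c => ⟨c ⊗ₜ 1, by rw [hψ, map_one, mul_one]⟩)
  have hann : Module.annihilator A V = ⊥ := by
    rw [eq_bot_iff]
    intro a ha
    rw [Module.mem_annihilator] at ha
    rw [Ideal.mem_bot]
    apply hΦinj
    rw [map_zero]
    apply Matrix.toLin'.injective
    ext1 i
    refine LinearMap.ext fun x => ?_
    have := ha (Pi.single i x)
    rw [hsm] at this
    simpa using this
  have hmin : (RingHom.ker ψ) ∈ (Module.annihilator A V).minimalPrimes := by
    rw [hann]
    refine ⟨⟨hmax.isPrime, bot_le⟩, ?_⟩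
    rintro q ⟨hq, -⟩ hle
    have hqm : q.IsMaximal := IsArtinianRing.isMaximal_of_isPrime q
    exact (hqm.eq_of_le hmax.ne_top hle).ge
  have hass := Module.associatedPrimes.minimalPrimes_annihilator_subset_associatedPrimes A V hmin
  obtain ⟨-, w, hw⟩ := isAssociatedPrime_iff.mp hass
  have hmem : ∀ a : A, a ∈ RingHom.ker ψ ↔ a • w = 0 := by
    intro a
    rw [hw, Submodule.mem_colon_singleton, Submodule.mem_bot]
  refine ⟨w, ?_, fun t => ?_⟩
  · rintro rfl
    have := (hmem 1).mpr (smul_zero _)
    exact hmax.ne_top ((Ideal.eq_top_iff_one _).mpr this)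
  · have h1 : (1 ⊗ₜ t - (χ t) ⊗ₜ 1 : A) ∈ RingHom.ker ψ := by
      rw [RingHom.mem_ker, map_sub, hψ, hψ, map_one, one_mul, mul_one, sub_self]
    rw [hmem, sub_smul, sub_eq_zero, hsm, hsm, hΦ, hΦ, map_one, one_smul] at h1
    have h2 : Q' t = (Q t).map (Int.castRingHom K) := rfl
    rw [h2] at h1
    rw [h1, Matrix.smul_mulVec, Matrix.one_mulVec]

end Fermat.Agent.HGModule
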