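import Fermat.Agent.HGModule.Basic
import Fermat.Agent.HGModule.EigenVec
import Fermat.Agent.QuadRep.Final

/-!
Two-dimensional Galois representations attached to points of the Hecke algebra, from a
`HeckeGaloisModule`.
-/

set_option autoImplicit false

open scoped TensorProduct
open Polynomial IsLocalRing

namespace Fermat.Agent.HGModule

open Fermat.Agent.QuadRep

local notation "G" => (AlgebraicClosure ℚ ≃ₐ[ℚ] AlgebraicClosure ℚ)

section Mat

variable {p : ℕ} [Fact p.Prime] {N : ℕ} [NeZero N] {S : Set ℕ} (D : HeckeGaloisModule p N S)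

/-- rank of the lattice -/
noncomputable abbrev rk : ℕ := Module.finrank ℤ D.H

/-- a basis of the lattice -/
noncomputable def bas : Module.Basis (Fin (rk D)) ℤ D.H := Module.finBasis ℤ D.H

/-- the induced `ℤ_p`-basis -/
noncomputable def basp : Module.Basis (Fin (rk D)) ℤ_[p] (ℤ_[p] ⊗[ℤ] D.H) :=
  Algebra.TensorProduct.basis ℤ_[p] (bas D)

/-- matrices of Hecke operators -/
noncomputable def Q : CuspForm.heckeAlgebra N 2 S →+* Matrix (Fin (rk D)) (Fin (rk D)) ℤ :=
  ((LinearMap.toMatrixAlgEquiv (bas D)).toAlgHom.toRingHom).comp D.θ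

theorem Q_injective : Function.Injective (Q D) :=
  (LinearMap.toMatrixAlgEquiv (bas D)).injective.comp D.θ_injective

/-- matrices of Galois elements -/
noncomputable def P : G →* Matrix (Fin (rk D)) (Fin (rk D)) ℤ_[p] :=
  ((LinearMap.toMatrixAlgEquiv (basp D)).toAlgHom.toRingHom : _ →* _).comp D.ρ

theorem P_def (σ : G) : P D σ = LinearMap.toMatrixAlgEquiv (basp D) (D.ρ σ) := rfl

theorem toMatrix_baseChange_θ (t : CuspForm.heckeAlgebra N 2 S) :
    LinearMap.toMatrixAlgEquiv (basp D) ((D.θ t).baseChange ℤ_[p]) =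
      (Q D t).map (algebraMap ℤ ℤ_[p]) := by
  exact LinearMap.toMatrix_baseChange ℤ_[p] (D.θ t) (bas D) (bas D)

theorem Q_commute (t : CuspForm.heckeAlgebra N 2 S) (σ : G) :
    (Q D t).map (algebraMap ℤ ℤ_[p]) * P D σ = P D σ * (Q D t).map (algebraMap ℤ ℤ_[p]) := by
  rw [← toMatrix_baseChange_θ, P_def, ← map_mul, ← map_mul, D.commute t σ]

theorem P_frobenius (ℓ : ℕ) (hℓ : ℓ.Prime) (hℓN : ¬ ℓ ∣ N) (hℓS : ℓ ∉ S) (hℓp : ℓ ≠ p)
    (A : ValuationSubring (AlgebraicClosure ℚ)) (hA : A.LiesOverPrime ℓ) (σ : G)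
    (hσ : A.IsFrobeniusAt σ ℓ) :
    P D σ * P D σ - (Q D (CuspForm.heckeAlgebra.T hℓ hℓN hℓS)).map (algebraMap ℤ ℤ_[p]) * P D σ
      + (ℓ : ℤ_[p]) • (1 : Matrix (Fin (rk D)) (Fin (rk D)) ℤ_[p]) = 0 := by
  have h := congrArg (LinearMap.toMatrixAlgEquiv (basp D)) (D.frobenius ℓ hℓ hℓN hℓS hℓp A hA σ hσ)
  rw [map_add, map_sub, map_mul, map_mul, map_smul, map_one, map_zero,
    toMatrix_baseChange_θ] at h
  exact h

theorem P_unramified (q : ℕ) (hq : q.Prime) (hqN : ¬ q ∣ N) (hqp : q ≠ p)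
    (A : ValuationSubring (AlgebraicClosure ℚ)) (hA : A.LiesOverPrime q) (σ : G)
    (hσ : σ ∈ A.inertiaSubgroupIn ℚ) : P D σ = 1 := by
  rw [P_def, D.unramified q hq hqN hqp A hA σ hσ, map_one]

theorem P_continuous (n : ℕ) : ∃ L : IntermediateField ℚ (AlgebraicClosure ℚ),
    FiniteDimensional ℚ L ∧ ∀ σ : G, (∀ x ∈ L, σ x = x) →
      ∀ i j, (P D σ - 1) i j ∈ maximalIdeal ℤ_[p] ^ n := by
  obtain ⟨L, hL, h1⟩ := D.isAdicContinuous n
  refine ⟨L, hL, fun σ hσ i j => ?_⟩
  have h2 := map_mem_of_mem_smul_top ((basp D).coord i) _ (h1 σ hσ (basp D j))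
  have h3 : P D σ - 1 = LinearMap.toMatrixAlgEquiv (basp D) (D.ρ σ - 1) := by
    rw [map_sub, map_one, P_def]
  rw [h3, LinearMap.toMatrixAlgEquiv_apply]
  exact h2

end Mat

section Local

variable {p : ℕ} [Fact p.Prime] {O : Type} [CommRing O] [IsLocalRing O]

theorem isLocalHom_of_natCast_mem (hp : (p : O) ∈ maximalIdeal O) (f : ℤ_[p] →+* O) :
    IsLocalHom f := by
  refine ⟨fun x hx => ?_⟩
  by_contra hnu
  have hx' : x ∈ maximalIdeal ℤ_[p] := hnu
  rw [PadicInt.maximalIdeal_eq_span_p, Ideal.mem_span_singleton] at hx'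
  obtain ⟨y, rfl⟩ := hx'
  have h1 : f ((p : ℤ_[p]) * y) ∈ maximalIdeal O := by
    rw [map_mul, map_natCast]
    exact Ideal.mul_mem_right _ _ hp
  exact h1 hx

end Local

section Main

variable {p : ℕ} [Fact p.Prime] {N : ℕ} [NeZero N] {S : Set ℕ} (D : HeckeGaloisModule p N S)
  (O : Type) [CommRing O] [IsDomain O] [IsDiscreteValuationRing O]
  [IsAdicComplete (maximalIdeal O) O] [CharZero O]

/-- the eigenspace of a point of the Hecke algebra -/
noncomputable def eig {K : Type*} [Field K] (χ : CuspForm.heckeAlgebra N 2 S →+* K) :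
    Submodule K (Fin (rk D) → K) where
  carrier := {w | ∀ t, ((Q D t).map (Int.castRingHom K)).mulVec w = χ t • w}
  add_mem' := by
    intro x y hx hy t
    rw [Matrix.mulVec_add, hx t, hy t, smul_add]
  zero_mem' := by
    intro t
    rw [Matrix.mulVec_zero, smul_zero]
  smul_mem' := by
    intro c x hx t
    rw [Matrix.mulVec_smul, hx t, smul_comm]

theorem mem_eig {K : Type*} [Field K] (χ : CuspForm.heckeAlgebra N 2 S →+* K)
    (w : Fin (rk D) → K) :
    w ∈ eig D χ ↔ ∀ t, ((Q D t).map (Int.castRingHom K)).mulVec w = χ t • w := Iff.rfl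

include D in
theorem exists_lattice_rep (hp : (p : O) ∈ maximalIdeal O)
    (χ : CuspForm.heckeAlgebra N 2 S →+* O) :
    ∃ (Λ : Type) (_ : AddCommGroup Λ) (_ : Module O Λ) (_ : Module.Free O Λ)
      (_ : Module.Finite O Λ) (_ : Nontrivial Λ) (ρ : G →* Module.End O Λ),
      GaloisActionIsAdicContinuous O ρ ∧
      (∀ (ℓ : ℕ) (hℓ : ℓ.Prime) (hℓN : ¬ ℓ ∣ N) (hℓS : ℓ ∉ S), ℓ ≠ p →
        ∀ A : ValuationSubring (AlgebraicClosure ℚ), A.LiesOverPrime ℓ → ∀ τ : G,
          A.IsFrobeniusAt τ ℓ → ρ τ ^ 2 - χ (CuspForm.heckeAlgebra.T hℓ hℓN hℓS) • ρ τ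
            + (ℓ : O) • (1 : Module.End O Λ) = 0) ∧
      (∀ q : ℕ, q.Prime → ¬ q ∣ N → q ≠ p → ∀ A : ValuationSubring (AlgebraicClosure ℚ),
        A.LiesOverPrime q → ∀ σ ∈ A.inertiaSubgroupIn ℚ, ρ σ = 1) := by
  let K := FractionRing O
  have : CharZero K := charZero_field O K
  let _ : Algebra ℤ_[p] O := (padicHom p O hp).toAlgebra
  have htow : IsScalarTower ℤ_[p] O K := inferInstance
  have hloc : IsLocalHom (algebraMap ℤ_[p] O) := isLocalHom_of_natCast_mem hp _
  have hinj : Function.Injective (algebraMap O K) := IsFractionRing.injective O K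
  let χ' : CuspForm.heckeAlgebra N 2 S →+* K := (algebraMap O K).comp χ
  let W := eig D χ'
  have hmapK : ∀ t, (Q D t).map (Int.castRingHom K) =
      ((Q D t).map (algebraMap ℤ ℤ_[p])).map (algebraMap ℤ_[p] K) := by
    intro t
    ext i j
    simp
  have hmapO : ∀ t, (Q D t).map (Int.castRingHom O) =
      ((Q D t).map (algebraMap ℤ ℤ_[p])).map (algebraMap ℤ_[p] O) := by
    intro t
    ext i j
    simp
  have hW : ∀ g, ∀ w ∈ W, act (P D) K g w ∈ W := by
    intro g w hw
    rw [mem_eig]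
    intro t
    have hw' := hw t
    rw [act_apply, Matrix.mulVec_mulVec, hmapK, ← Matrix.map_mul, Q_commute, Matrix.map_mul,
      ← hmapK, ← Matrix.mulVec_mulVec, hw', Matrix.mulVec_smul]
  -- the lattice is nonzero
  have hnt : Nontrivial (lat O W) := by
    obtain ⟨w, hw0, hw⟩ := exists_eigenvector (Q D) (Q_injective D) χ'
    obtain ⟨d, hd⟩ := IsLocalization.exist_integer_multiples_of_finite (nonZeroDivisors O) w
    choose z hz using hd
    have hd0 : algebraMap O K d ≠ 0 := by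
      intro h
      exact nonZeroDivisors.coe_ne_zero d (hinj (by rw [h, map_zero]))
    have hz' : incl O K (rk D) z = algebraMap O K d • w := by
      ext j
      rw [incl_apply, hz j, Algebra.smul_def]
      rfl
    have hzW : z ∈ lat O W := by
      change incl O K (rk D) z ∈ W
      rw [hz']
      exact W.smul_mem _ hw
    have hz0 : z ≠ 0 := by
      rintro rfl
      rw [map_zero] at hz'
      exact (smul_ne_zero hd0 hw0) hz'.symm
    exact ⟨⟨⟨z, hzW⟩, 0, fun h => hz0 (congrArg Subtype.val h)⟩⟩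
  -- Hecke operators on the lattice
  have hlat : ∀ (x : Fin (rk D) → O), x ∈ lat O W → ∀ t,
      ((Q D t).map (Int.castRingHom O)).mulVec x = χ t • x := by
    intro x hx t
    have h1 := hx t
    ext i
    apply hinj
    have h2 := congrFun h1 i
    simp only [Matrix.mulVec, dotProduct, Matrix.map_apply, incl_apply, Pi.smul_apply, smul_eq_mul,
      map_sum, map_mul] at h2 ⊢
    rw [← show χ' t = algebraMap O K (χ t) from rfl, ← h2]
    simp
  refine ⟨lat O W, inferInstance, inferInstance, inferInstance, inferInstance, hnt,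
    latAct (P D) W hW, latAct_continuous (P D) hinj (P_continuous D) W hW, ?_, ?_⟩
  · intro ℓ hℓ hℓN hℓS hℓp A hA τ hτ
    refine LinearMap.ext fun m => Subtype.ext ?_
    have h1 := P_frobenius D ℓ hℓ hℓN hℓS hℓp A hA τ hτ
    set t := CuspForm.heckeAlgebra.T (k := 2) hℓ hℓN hℓS with ht
    have h2 := congrArg (fun M : Matrix (Fin (rk D)) (Fin (rk D)) ℤ_[p] =>
      (M.map (algebraMap ℤ_[p] O)).mulVec (m : Fin (rk D) → O)) h1
    have h3 := hlat _ (latAct (P D) W hW τ m).2 t
    rw [coe_latAct, act_apply] at h3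
    have h4 : (P D τ * P D τ - (Q D t).map (algebraMap ℤ ℤ_[p]) * P D τ
        + (ℓ : ℤ_[p]) • (1 : Matrix (Fin (rk D)) (Fin (rk D)) ℤ_[p])).map (algebraMap ℤ_[p] O) =
        (P D τ).map (algebraMap ℤ_[p] O) * (P D τ).map (algebraMap ℤ_[p] O) -
        (Q D t).map (Int.castRingHom O) * (P D τ).map (algebraMap ℤ_[p] O) +
        (ℓ : O) • (1 : Matrix (Fin (rk D)) (Fin (rk D)) O) := by
      rw [Matrix.map_add _ (map_add _), Matrix.map_sub _ (map_sub _), Matrix.map_mul,
        Matrix.map_mul, ← hmapO]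
      congr 1
      ext i j
      rw [Matrix.map_apply, Matrix.smul_apply, Matrix.smul_apply, smul_eq_mul, smul_eq_mul,
        map_mul, map_natCast, Matrix.one_apply, Matrix.one_apply]
      split_ifs <;> simp
    simp only [h4] at h2
    rw [Matrix.add_mulVec, Matrix.sub_mulVec, ← Matrix.mulVec_mulVec, ← Matrix.mulVec_mulVec, h3,
      Matrix.smul_mulVec, Matrix.one_mulVec, Matrix.map_zero _ (map_zero _),
      Matrix.zero_mulVec] at h2
    rw [sq]
    exact h2
  · intro q hq hqN hqp A hA σ hσ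
    refine LinearMap.ext fun m => Subtype.ext ?_
    rw [coe_latAct, act_apply, P_unramified D q hq hqN hqp A hA σ hσ,
      Matrix.map_one _ (map_zero _) (map_one _), Matrix.one_mulVec]
    rfl

end Main

end Fermat.Agent.HGModule
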