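import Fermat.Agent.ECP.Count
import Fermat.Agent.Frob.QbarInst
import Fermat.Prelude.Def_EllipticCurve_FrobeniusTrace
import Fermat.Prelude.Def_GaloisRep_Residual
import Mathlib.FieldTheory.IntermediateField.Adjoin.Basic

/-!
The Galois action on a finite torsion subgroup of an elliptic curve over `ℚ` factors through a
finite level.
-/

set_option autoImplicit false

open WeierstrassCurve WeierstrassCurve.Affine WeierstrassCurve.Affine.Point

namespace Fermat.Agent.HGModule

section

variable {F : Type*} [Field F] {W : WeierstrassCurve.Affine F}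

/-- `x`-coordinate -/
def xco : W.Point → F
  | .zero => 0
  | .some x _ _ => x

/-- `y`-coordinate -/
def yco : W.Point → F
  | .zero => 0
  | .some _ y _ => y

end

theorem exists_level [DecidableEq (AlgebraicClosure ℚ)] (W : WeierstrassCurve ℚ) (n : ℕ)
    (hfin : Finite (Submodule.torsionBy ℤ (W⁄(AlgebraicClosure ℚ)).Point n)) :
    ∃ L : IntermediateField ℚ (AlgebraicClosure ℚ), FiniteDimensional ℚ L ∧
      ∀ σ : AlgebraicClosure ℚ ≃ₐ[ℚ] AlgebraicClosure ℚ, (∀ x ∈ L, σ x = x) →
        galoisRepModuleEnd (K := AlgebraicClosure ℚ) ℚ W n σ = 1 := by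
  classical
  let T := Submodule.torsionBy ℤ (W⁄(AlgebraicClosure ℚ)).Point n
  let s : Set (AlgebraicClosure ℚ) :=
    Set.range (fun P : T => xco P.1) ∪ Set.range (fun P : T => yco P.1)
  have hs : Finite s := ((Set.finite_range _).union (Set.finite_range _)).to_subtype
  refine ⟨IntermediateField.adjoin ℚ s, IntermediateField.finiteDimensional_adjoin
    (fun x _ => Algebra.IsIntegral.isIntegral x), fun σ hσ => ?_⟩
  refine LinearMap.ext fun P => Subtype.ext ?_
  have hx : σ (xco P.1) = xco P.1 :=
    hσ _ (IntermediateField.subset_adjoin _ _ (Or.inl ⟨P, rfl⟩))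
  have hy : σ (yco P.1) = yco P.1 :=
    hσ _ (IntermediateField.subset_adjoin _ _ (Or.inr ⟨P, rfl⟩))
  rw [galoisRepModuleEnd_apply, Module.End.one_apply]
  change σ • P.1 = P.1
  obtain ⟨P, hP⟩ := P
  change σ • P = P
  cases P with
  | zero => rfl
  | some x y h =>
    rw [algEquiv_smul_def]
    simp only [xco, yco] at hx hy
    rw [Point.map_some]
    congr 1

end Fermat.Agent.HGModule
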